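import Fermat.Agent.ConductorMatch.Match
import Fermat.Agent.ModularityLifting.Points.Galois
import Fermat.Agent.ModularityLifting.Engine.TameLocal
import Fermat.Agent.IgusaCover.LinAlg
import Fermat.Agent.SemistableHecke.LocalNewform
import Fermat.Agent.CarayolSquare.Main
import Fermat.Agent.DefRing.Burnside
import Fermat.Agent.LevelLowering.SiteIdentities

/-!
# Local properties of points lying on newforms

A point of a Hecke algebra lies on a newform of level `M` (`OnNewform`) when its Frobenius traces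
are the eigenvalues of the form.  At primes not dividing `M` it is unramified, at primes exactly
dividing `M` it is Steinberg (strictly ordinary at `p`), and at primes with square exactly
dividing `M` inertia is not unipotent (from Carayol's theorem).  Used for all points of the core.
-/

set_option autoImplicit false

noncomputable section

open IsLocalRing Matrix CongruenceSubgroup ModularFormClass Polynomial

namespace FLTAgent.LevelLowering

open FLTAgent.Density (GalQ Qbar)
open FLTAgent.DefRing FLTAgent.GaloisAttach FLTAgent.HeckePoints FLTAgent.ModularityLifting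
  FLTAgent.MazurStep

section Trace

variable {A : Type} [CommRing A] [IsLocalRing A]

/-- The determinant of a matrix representation. -/
def detChar (ρ : MatRep A) : GalQ →* A := Matrix.detMonoidHom.comp ρ

omit [IsLocalRing A] in
theorem detChar_apply (ρ : MatRep A) (σ : GalQ) : detChar ρ σ = (ρ σ).det := rfl

/-- Trace and determinant of a continuous representation are continuous. -/
theorem traceCont_of_matCont {ρ : MatRep A} (hρ : MatCont ρ) :
    TraceCont (maximalIdeal A) (fun σ => (ρ σ).trace) (detChar ρ) := by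
  intro k
  obtain ⟨L, hL, h⟩ := hρ k
  refine ⟨L, hL, fun σ hσ => ⟨?_, fun y => ?_⟩⟩
  · have h00 := h σ hσ 0 0
    have h11 := h σ hσ 1 1
    have h01 := h σ hσ 0 1
    simp only [Matrix.sub_apply, Matrix.one_apply_eq, Matrix.one_apply_ne Fin.zero_ne_one,
      sub_zero] at h00 h11 h01
    rw [detChar_apply, Matrix.det_fin_two,
      show ρ σ 0 0 * ρ σ 1 1 - ρ σ 0 1 * ρ σ 1 0 - 1 =
        (ρ σ 0 0 - 1) * ρ σ 1 1 + (ρ σ 1 1 - 1) - ρ σ 0 1 * ρ σ 1 0 by ring]
    exact sub_mem (add_mem (Ideal.mul_mem_right _ _ h00) h11) (Ideal.mul_mem_right _ _ h01)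
  · show (ρ (y * σ)).trace - (ρ y).trace ∈ _
    rw [map_mul, ← Matrix.trace_sub, show ρ y * ρ σ - ρ y = ρ y * (ρ σ - 1) by
      rw [mul_sub, mul_one], Matrix.trace_fin_two, Matrix.mul_apply, Matrix.mul_apply]
    exact add_mem (sum_mem fun i _ => Ideal.mul_mem_left _ _ (h σ hσ i 0))
      (sum_mem fun i _ => Ideal.mul_mem_left _ _ (h σ hσ i 1))

omit [IsLocalRing A] in
theorem isPseudoRep_trace (ρ : MatRep A) : IsPseudoRep (fun σ => (ρ σ).trace) (detChar ρ) :=
  isPseudoRep_of_matRep ρ (detChar ρ) fun _ => rfl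

/-- An element acting trivially on all traces is trivial when the residual image spans. -/
theorem eq_one_of_trace {ρ : MatRep A} (hirr : AbsIrreducibleOn (mapRep (residue A) ρ) ⊤) {σ : GalQ}
    (h : ∀ y, (ρ (y * σ)).trace = (ρ y).trace) : ρ σ = 1 := by
  have hres := span_range_eq_top (algebraMap (ResidueField A) (AlgebraicClosure (ResidueField A)))
    (mapRep (residue A) ρ) fun v hv hc => hv (hirr _ _ v fun g _ => hc g)
  have htop := IgusaCover.span_eq_top_of_residual (residue A) residue_surjective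
    IsLocalRing.ker_residue ρ hres
  have key : ∀ X : Matrix (Fin 2) (Fin 2) A, (X * (ρ σ - 1)).trace = 0 := by
    intro X
    have hX : X ∈ Submodule.span A (Set.range ρ) := htop ▸ Submodule.mem_top
    induction hX using Submodule.span_induction with
    | mem X hX =>
      obtain ⟨g, rfl⟩ := hX
      rw [mul_sub, mul_one, Matrix.trace_sub, ← map_mul, h, sub_self]
    | zero => simp
    | add a b _ _ ha hb => rw [add_mul, Matrix.trace_add, ha, hb, add_zero]
    | smul c a _ ha => rw [Matrix.smul_mul, Matrix.trace_smul, ha, smul_zero]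
  refine sub_eq_zero.mp (Matrix.ext fun i k => ?_)
  have h1 := key (Matrix.single k i 1)
  rw [Matrix.trace_fin_two] at h1
  fin_cases i <;> fin_cases k <;>
    simpa [Matrix.mul_apply, Fin.sum_univ_two, Matrix.single] using h1

/-- If a tame inertia element has trace two then so has all of inertia. -/
theorem trace_eq_two_of_tame [IsHausdorff (maximalIdeal A) A] {p r : ℕ} (hp : p.Prime)
    (hp' : (p : A) ∈ maximalIdeal A) (hr : r.Prime) (hrp : r ≠ p)
    {P : ValuationSubring Qbar} (hP : P.LiesOverPrime r) {x : Qbar} (hx : x ^ p = (r : Qbar))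
    {τ : GalQ} (hτ : τ ∈ P.inertiaSubgroupIn ℚ) (hτx : τ x ≠ x) (ρ : MatRep A) (hρ : MatCont ρ)
    (hres : ∀ σ ∈ P.inertiaSubgroupIn ℚ, ∀ i k, (ρ σ - 1) i k ∈ maximalIdeal A)
    (hdet : (ρ τ).det = 1) (htr : (ρ τ).trace = 2) :
    ∀ σ ∈ P.inertiaSubgroupIn ℚ, (ρ σ).trace = 2 := by
  intro σ hσ
  refine sub_eq_zero.mp (IsHausdorff.haus (I := maximalIdeal A) inferInstance _ fun k => ?_)
  rw [SModEq.zero, smul_eq_mul, Ideal.mul_top]
  refine Ideal.pow_le_pow_right (Nat.le_succ k) ?_
  let Q := A ⧸ maximalIdeal A ^ (k + 1)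
  let q : A →+* Q := Ideal.Quotient.mk _
  let π : GalQ →* (Matrix (Fin 2) (Fin 2) Q)ˣ := ((q.mapMatrix).toMonoidHom.comp ρ).toHomUnits
  have hπ : ∀ g, (π g : Matrix (Fin 2) (Fin 2) Q) = (ρ g).map q := fun g => rfl
  have hone : ∀ Y : Matrix (Fin 2) (Fin 2) A,
      (∀ i l, (Y - 1) i l ∈ maximalIdeal A ^ (k + 1)) → q.mapMatrix Y = 1 := fun Y hY => by
    rw [← sub_eq_zero, ← map_one q.mapMatrix, ← map_sub]
    exact Matrix.ext fun i l => Ideal.Quotient.eq_zero_iff_mem.mpr (hY i l)
  obtain ⟨L, hL, hLρ⟩ := hρ (k + 1)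
  have hres2 : ∀ g ∈ P.inertiaSubgroupIn ℚ, ∀ i l,
      ((ρ g - 1) * (ρ g - 1)) i l ∈ maximalIdeal A := fun g hg i l => by
    rw [Matrix.mul_apply]
    exact sum_mem fun m _ => Ideal.mul_mem_left _ _ (hres g hg m l)
  have hk : ∀ g ∈ P.inertiaSubgroupIn ℚ, π g ^ p ^ (k + 1) = 1 := fun g hg => Units.ext (by
    rw [Units.val_pow_eq_pow_val, hπ, ← RingHom.mapMatrix_apply, ← map_pow]
    exact hone _ (pow_prime_pow_sub_one_mem hp hp' _ (hres2 g hg) k))
  obtain ⟨h1, -⟩ := tame_generator hp hr hrp hP hx hτ hτx π L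
    (fun g hg => Units.ext (hone _ (hLρ g hg))) (k + 1) hk
  obtain ⟨j, hj⟩ := h1 σ hσ
  have hn : π τ ^ ((p ^ (k + 1) : ℕ) : ℤ) = 1 := by rw [zpow_natCast, hk τ hτ]
  obtain ⟨s, hs⟩ : ∃ s : ℕ, π σ = π τ ^ s := by
    refine ⟨(j % ((p ^ (k + 1) : ℕ) : ℤ)).toNat, ?_⟩
    rw [hj, ← zpow_natCast, Int.toNat_of_nonneg (Int.emod_nonneg _ (by
      exact_mod_cast pow_ne_zero _ hp.ne_zero))]
    conv_lhs => rw [← Int.mul_ediv_add_emod j ((p ^ (k + 1) : ℕ) : ℤ)]
    rw [_root_.zpow_add, _root_.zpow_mul, hn, _root_.one_zpow, one_mul]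
  have hsq : (ρ τ - 1) * (ρ τ - 1) = 0 := by
    have h := sq_eq_trace_smul_sub (ρ τ)
    rw [htr, hdet, one_smul] at h
    rw [sub_mul, mul_sub, h, two_smul, mul_one, one_mul]
    abel
  have hpow : ∀ s : ℕ, ρ τ ^ s = 1 + s • (ρ τ - 1) := by
    intro s
    induction s with
    | zero => simp
    | succ s ih =>
      rw [pow_succ, ih, add_mul, one_mul, smul_mul_assoc,
        show (ρ τ - 1) * ρ τ = ρ τ - 1 by
          rw [mul_sub, mul_one, sub_eq_zero] at hsq; exact hsq, succ_nsmul]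
      abel
  have e := congrArg Units.val hs
  rw [Units.val_pow_eq_pow_val, hπ, hπ, ← RingHom.mapMatrix_apply, ← RingHom.mapMatrix_apply,
    ← map_pow, hpow] at e
  have e' := congrArg Matrix.trace e
  rw [RingHom.mapMatrix_apply, RingHom.mapMatrix_apply, ← AddMonoidHom.map_trace,
    ← AddMonoidHom.map_trace, Matrix.trace_add, Matrix.trace_smul, Matrix.trace_sub, htr,
    Matrix.trace_one, Fintype.card_fin, Nat.cast_ofNat, sub_self, smul_zero, add_zero] at e'
  exact Ideal.Quotient.eq.mp e'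

end Trace

section Newform

variable {p : ℕ} [Fact p.Prime] {C : Type} [CommRing C] [IsDomain C] [IsDiscreteValuationRing C]
  [IsAdicComplete (maximalIdeal C) C] [Finite (ResidueField C)] [CharZero C]

/-- A representation lying on a newform. -/
structure OnNewform (hpC : (p : C) ∈ maximalIdeal C) (S : Finset ℕ) (ρ : MatRep C) {M : ℕ}
    [NeZero M] (g : CuspForm (Gamma0 M) 2) : Prop where
  isNewform : g.IsNewform
  mem : p ∈ S ∧ ∀ q, q.Prime → q ∣ M → q ∈ S
  cont : MatCont ρ
  det : ∀ σ, (ρ σ).det = cycChar hpC σ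
  char : ∃ θ : CuspForm.heckeAlgebra M 2 (S : Set ℕ) →+* C,
    RingHom.ker θ =
        RingHom.ker (Eigenforms.eigenChar (S := (S : Set ℕ)) isNewform.isNormalizedEigenform) ∧
      ∀ (l : ℕ) (hl : l.Prime) (hlM : ¬ l ∣ M) (hlS : l ∉ (S : Set ℕ)),
        ∀ P : ValuationSubring Qbar, P.LiesOverPrime l → ∀ φ, P.IsFrobeniusAt φ l →
          (ρ φ).trace = θ (CuspForm.heckeAlgebra.T hl hlM hlS)

variable {hpC : (p : C) ∈ maximalIdeal C} {S : Finset ℕ} {ρ : MatRep C} {M : ℕ} [NeZero M]
  {g : CuspForm (Gamma0 M) 2}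

omit [IsDiscreteValuationRing C] [IsAdicComplete (maximalIdeal C) C] [Finite (ResidueField C)]
  [CharZero C] [Fact p.Prime] in
omit [IsDomain C] in
/-- A character of the Hecke algebra with the given values. -/
theorem exists_theta {K : Type} [Field K] (j : C →+* K) (hj : Function.Injective j)
    (hg : g.IsNormalizedEigenform) (S : Finset ℕ) (hS : ∀ q, q.Prime → q ∣ M → q ∈ S)
    {F : Subfield K} (e : F →+* ℂ) (c : ℕ → C) (hcF : ∀ l, l.Prime → l ∉ S →
      ∃ h : j (c l) ∈ F, qCoeff g l = e ⟨j (c l), h⟩) :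
    ∃ θ : CuspForm.heckeAlgebra M 2 (S : Set ℕ) →+* C,
      RingHom.ker θ = RingHom.ker (Eigenforms.eigenChar (S := (S : Set ℕ)) hg) ∧
      ∀ (l : ℕ) (hl : l.Prime) (hlM : ¬ l ∣ M) (hlS : l ∉ (S : Set ℕ)),
        θ (CuspForm.heckeAlgebra.T hl hlM hlS) = c l := by
  set χ := Eigenforms.eigenChar (S := (S : Set ℕ)) hg
  let B : Subring C := F.toSubring.comap j
  let ι : B →+* ℂ := e.comp ((j.comp B.subtype).codRestrict F fun x => x.2)
  have hι : Function.Injective ι :=
    e.injective.comp fun x y h => Subtype.ext (hj (congrArg Subtype.val h))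
  have hmem : ∀ t, χ t ∈ ι.range := by
    rintro ⟨t, ht⟩
    induction ht using Algebra.adjoin_induction with
    | mem x hx =>
      rcases hx with ⟨l, hl, hlM, hlS, rfl⟩ | ⟨q, hqM, hq, hqS, rfl⟩
      · obtain ⟨h, he⟩ := hcF l hl fun h => hlS (Finset.mem_coe.mpr h)
        exact ⟨⟨c l, h⟩, he.symm.trans (Eigenforms.eigenChar_T hg hl hlM hlS).symm⟩
      · exact absurd (Finset.mem_coe.mpr (hS q hq hqM)) hqS
    | algebraMap r =>
      rw [show (⟨_, Subalgebra.algebraMap_mem _ r⟩ : CuspForm.heckeAlgebra M 2 (S : Set ℕ)) =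
        algebraMap ℤ _ r from rfl, eq_intCast, map_intCast]
      exact intCast_mem _ r
    | add x y hx hy ihx ihy =>
      rw [show (⟨x + y, _⟩ : CuspForm.heckeAlgebra M 2 (S : Set ℕ)) = ⟨x, hx⟩ + ⟨y, hy⟩ from rfl,
        map_add]
      exact add_mem ihx ihy
    | mul x y hx hy ihx ihy =>
      rw [show (⟨x * y, _⟩ : CuspForm.heckeAlgebra M 2 (S : Set ℕ)) = ⟨x, hx⟩ * ⟨y, hy⟩ from rfl,
        map_mul]
      exact mul_mem ihx ihy
  choose b hb using hmem
  let θB : CuspForm.heckeAlgebra M 2 (S : Set ℕ) →+* B :=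
    { toFun := b
      map_one' := hι (by rw [hb, map_one, map_one])
      map_mul' := fun x y => hι (by rw [hb, map_mul, map_mul, hb, hb])
      map_zero' := hι (by rw [hb, map_zero, map_zero])
      map_add' := fun x y => hι (by rw [hb, map_add, map_add, hb, hb]) }
  refine ⟨B.subtype.comp θB, ?_, fun l hl hlM hlS => ?_⟩
  · ext t
    rw [RingHom.mem_ker, RingHom.mem_ker, RingHom.comp_apply, ← hb t]
    exact ⟨fun h => by rw [show b t = 0 from Subtype.ext h, map_zero],
      fun h => by rw [show θB t = 0 from hι (h.trans (map_zero ι).symm), map_zero]⟩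
  · obtain ⟨h, he⟩ := hcF l hl fun h => hlS (Finset.mem_coe.mpr h)
    show ((b _ : B) : C) = ((⟨c l, h⟩ : B) : C)
    exact congrArg Subtype.val (hι ((hb _).trans ((Eigenforms.eigenChar_T hg hl hlM hlS).trans he)))

omit [Finite (ResidueField C)] [CharZero C] in
/-- Points lie on newforms. -/
theorem onNewform_of_coeff {K : Type} [Field K] (j : C →+* K) (hj : Function.Injective j)
    (hg : g.IsNewform) (hpS : p ∈ S) (hS : ∀ q, q.Prime → q ∣ M → q ∈ S) (hρ : MatCont ρ)
    (hdet : ∀ σ, (ρ σ).det = cycChar hpC σ) {F : Subfield K} (e : F →+* ℂ) (c : ℕ → C)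
    (hcF : ∀ l, l.Prime → l ∉ S → ∃ h : j (c l) ∈ F, qCoeff g l = e ⟨j (c l), h⟩)
    (hfrob : ∀ l, l.Prime → l ∉ S → ∀ P : ValuationSubring Qbar, P.LiesOverPrime l →
      ∀ φ, P.IsFrobeniusAt φ l → (ρ φ).trace = c l) :
    OnNewform hpC S ρ g := by
  obtain ⟨θ, hker, hθ⟩ := exists_theta j hj hg.isNormalizedEigenform S hS e c hcF
  exact ⟨hg, ⟨hpS, hS⟩, hρ, hdet, θ, hker, fun l hl hlM hlS P hP φ hφ =>
    (hfrob l hl (fun h => hlS (Finset.mem_coe.mpr h)) P hP φ hφ).trans (hθ l hl hlM hlS).symm⟩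

namespace OnNewform

variable (H : OnNewform hpC S ρ g)
include H

omit [Finite (ResidueField C)] [CharZero C] in
/-- The trace is the attached trace function. -/
theorem exists_attached : ∃ θ : CuspForm.heckeAlgebra M 2 (S : Set ℕ) →+* C,
    RingHom.ker θ =
        RingHom.ker (Eigenforms.eigenChar (S := (S : Set ℕ)) H.isNewform.isNormalizedEigenform) ∧
      (∀ (l : ℕ) (hl : l.Prime) (hlM : ¬ l ∣ M) (hlS : l ∉ (S : Set ℕ)),
        ∀ P : ValuationSubring Qbar, P.LiesOverPrime l → ∀ φ, P.IsFrobeniusAt φ l →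
          (ρ φ).trace = θ (CuspForm.heckeAlgebra.T hl hlM hlS)) ∧
      ∃ T : AttachedTrace M p (S : Set ℕ) (maximalIdeal C) θ, ∀ σ, (ρ σ).trace = T.f σ := by
  obtain ⟨θ, hker, hθ⟩ := H.char
  obtain ⟨T, -, -⟩ := exists_attachedTrace_link (jacobianInputs M (p := p) Fact.out)
    frobeniusDivisions S.finite_toSet (maximalIdeal C) hpC θ
  obtain ⟨h1, h2⟩ := traceCont_of_attached T
  refine ⟨θ, hker, hθ, T, fun σ => congrFun (eq_of_frobenius frobeniusDivisions
    (isPseudoRep_trace ρ) h1 (traceCont_of_matCont H.cont) h2 S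
    fun l hl hlS P hP φ hφ => ?_).1 σ⟩
  have hlM : ¬ l ∣ M := fun h => hlS (H.mem.2 l hl h)
  have hlp : l ≠ p := fun h => hlS (h ▸ H.mem.1)
  have hlS' : l ∉ (S : Set ℕ) := fun h => hlS (Finset.mem_coe.mp h)
  obtain ⟨e1, e2⟩ := T.frob l hl hlM hlS' hlp P hP φ hφ
  exact ⟨(hθ l hl hlM hlS' P hP φ hφ).trans e1.symm,
    by rw [detChar_apply, H.det, cycChar_frobenius hpC hl hlp hP hφ, e2]⟩

omit [Finite (ResidueField C)] [CharZero C] in
/-- Unramified away from the level. -/
theorem unramifiedAt (hirr : AbsIrreducibleOn (mapRep (residue C) ρ) ⊤) {q : ℕ} (hq : q.Prime)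
    (hqp : q ≠ p) (hqM : ¬ q ∣ M) : UnramifiedAt ρ q := by
  obtain ⟨θ, -, -, T, hT⟩ := H.exists_attached
  intro P hP σ hσ
  have hd : ¬ q ∣ M * p := fun h => (hq.dvd_mul.mp h).elim hqM
    fun h => hqp ((Nat.prime_dvd_prime_iff_eq hq Fact.out).mp h)
  exact eq_one_of_trace hirr fun y => by rw [hT, hT, (T.inertia q hq hd P hP σ hσ).2 y]

omit [Finite (ResidueField C)] in
/-- Steinberg at primes exactly dividing the level. -/
theorem steinbergAt (hp2 : p ≠ 2)
    (hirr : AbsIrreducibleOn (mapRep (residue C) ρ) ⊤) {q : ℕ} (hq : q.Prime) (hqp : q ≠ p)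
    (hqM : q ∣ M) (hq2 : ¬ q ^ 2 ∣ M) : ∃ ε : ℤ, (ε = 1 ∨ ε = -1) ∧ SteinbergAt ρ q (ε : C) := by
  obtain ⟨θ, hker, -, T, hT⟩ := H.exists_attached
  obtain ⟨ε, hε, -, hst, -⟩ :=
    SemistableHecke.local_of_newform hp2 hpC H.isNewform hq hqM hq2 S θ hker T ρ hT hirr
  exact ⟨ε, hε, hst hqp⟩

omit [Finite (ResidueField C)] in
/-- Strictly ordinary at `p` exactly dividing the level. -/
theorem exists_strictAt (hp2 : p ≠ 2) (hirr : AbsIrreducibleOn (mapRep (residue C) ρ) ⊤)
    (hpM : p ∣ M) (hp2M : ¬ p ^ 2 ∣ M) :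
    ∃ ε : ℤ, (ε = 1 ∨ ε = -1) ∧ StrictAt ρ p (ε : C) := by
  obtain ⟨θ, hker, -, T, hT⟩ := H.exists_attached
  obtain ⟨ε, hε, -, -, hst⟩ :=
    SemistableHecke.local_of_newform hp2 hpC H.isNewform Fact.out hpM hp2M S θ hker T ρ hT hirr
  exact ⟨ε, hε, hst rfl⟩

/-- Not unipotent on inertia at primes with square exactly dividing the level. -/
theorem exists_inertia_trace_ne_two (hp2 : p ≠ 2)
    (hirr : AbsIrreducibleOn (mapRep (residue C) ρ) ⊤) {r : ℕ} (hr : r.Prime) (hrp : r ≠ p)
    (hM : M.factorization r = 2) {P : ValuationSubring Qbar} (hP : P.LiesOverPrime r) :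
    ∃ σ ∈ P.inertiaSubgroupIn ℚ, (ρ σ).trace ≠ 2 := by
  classical
  obtain ⟨θ, hker, hθ⟩ := H.char
  set χ := Eigenforms.eigenChar (S := (S : Set ℕ)) H.isNewform.isNormalizedEigenform
  let iota : χ.range →+* C := RingHom.liftOfSurjective χ.rangeRestrict χ.rangeRestrict_surjective
    ⟨θ, by rw [RingHom.ker_rangeRestrict, hker]⟩
  have hiota : ∀ t, iota (χ.rangeRestrict t) = θ t := fun t =>
    RingHom.liftOfRightInverse_comp_apply _ _ _ _ t
  -- any attached representation has the traces and determinants of `ρ`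
  have key : ∀ (O'' : Type) [CommRing O''] [IsDomain O''] [IsDiscreteValuationRing O'']
      [IsAdicComplete (maximalIdeal O'') O''] [Algebra C O''] [IsLocalHom (algebraMap C O'')]
      (ρ'' : GaloisRepAdic O'') (b : Module.Basis (Fin 2) O'' ρ''.V),
      (∀ (l : ℕ) (hl : l.Prime), l ≠ p → ∀ (hlM : ¬ l ∣ M) (hlS : l ∉ (S : Set ℕ)),
        ∀ Q : ValuationSubring Qbar, Q.LiesOverPrime l → ∀ σ : GalQ, Q.IsFrobeniusAt σ l →
          LinearMap.charpoly (ρ''.ρ σ) = X ^ 2 - Polynomial.C (algebraMap C O''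
            ((iota.comp χ.rangeRestrict) (CuspForm.heckeAlgebra.T hl hlM hlS))) * X +
            Polynomial.C (l : O'')) →
      ∀ σ, (matRep ρ'' b σ).trace = algebraMap C O'' (ρ σ).trace ∧
        (matRep ρ'' b σ).det = algebraMap C O'' (ρ σ).det := by
    intro O'' _ _ _ _ _ _ ρ'' b hfrob σ
    have hloc : IsLocalHom (algebraMap C O'') := inferInstance
    have hm : MatCont (mapRep (algebraMap C O'') ρ) := H.cont.map _ hloc
    obtain ⟨h1, h2⟩ := eq_of_frobenius frobeniusDivisions (isPseudoRep_trace (matRep ρ'' b))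
      (isPseudoRep_trace (mapRep (algebraMap C O'') ρ))
      (traceCont_of_matCont (matCont_matRep ρ'' b)) (traceCont_of_matCont hm) S
      fun l hl hlS Q hQ φ hφ => by
        have hlM : ¬ l ∣ M := fun h => hlS (H.mem.2 l hl h)
        have hlp : l ≠ p := fun h => hlS (h ▸ H.mem.1)
        have hlS' : l ∉ (S : Set ℕ) := fun h => hlS (Finset.mem_coe.mp h)
        obtain ⟨e1, e2⟩ := ConductorMatch.trace_det_of_charpoly ρ'' b
          (hfrob l hl hlp hlM hlS' Q hQ φ hφ)
        refine ⟨e1.trans ?_, ?_⟩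
        · rw [RingHom.comp_apply, hiota, ← hθ l hl hlM hlS' Q hQ φ hφ]
          exact AddMonoidHom.map_trace (algebraMap C O'').toAddMonoidHom _
        · rw [detChar_apply, detChar_apply, e2,
            show (mapRep (algebraMap C O'') ρ φ).det = algebraMap C O'' (ρ φ).det from
              (RingHom.map_det _ _).symm, H.det, cycChar_frobenius hpC hl hlp hQ hφ, map_natCast]
    refine ⟨(congrFun h1 σ).trans ?_, (DFunLike.congr_fun h2 σ).trans ?_⟩
    · exact (AddMonoidHom.map_trace (algebraMap C O'').toAddMonoidHom _).symm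
    · exact (RingHom.map_det (algebraMap C O'') (ρ σ)).symm
  have hres : ∀ (O'' : Type) [CommRing O''] [IsDomain O''] [IsDiscreteValuationRing O'']
      [IsAdicComplete (maximalIdeal O'') O''] [Finite (ResidueField O'')] [CharZero O'']
      [Algebra C O''] [Module.Finite C O''] [IsLocalHom (algebraMap C O'')],
      Function.Injective (algebraMap C O'') → ∀ (ρ'' : GaloisRepAdic O''),
      (∀ (l : ℕ) (hl : l.Prime) (_hlp : l ≠ p) (hlM : ¬ l ∣ M) (hlS : l ∉ (S : Set ℕ)),
        ∀ Q : ValuationSubring Qbar, Q.LiesOverPrime l → ∀ σ : GalQ, Q.IsFrobeniusAt σ l →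
          LinearMap.charpoly (ρ''.ρ σ) = X ^ 2 - Polynomial.C (algebraMap C O''
            ((iota.comp χ.rangeRestrict) (CuspForm.heckeAlgebra.T hl hlM hlS))) * X +
            Polynomial.C (l : O'')) →
      ρ''.residual.IsAbsolutelyIrreducible ∧ ρ''.residual.IsOdd := by
    intro O'' _ _ _ _ _ _ _ _ _ _ ρ'' hfrob
    obtain ⟨b⟩ : Nonempty (Module.Basis (Fin 2) O'' ρ''.V) :=
      ⟨Module.finBasisOfFinrankEq O'' ρ''.V ρ''.finrank_eq⟩
    have hh := key O'' ρ'' b fun l hl hlp => hfrob l hl hlp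
    let f := IsLocalRing.ResidueField.map (algebraMap C O'')
    let R0 := mapRep (residue C) ρ
    have htr : ∀ σ, LinearMap.trace _ ρ''.residual.V (ρ''.residual.ρ σ) = f (R0 σ).trace :=
      fun σ => by
        refine (LinearMap.trace_baseChange (ρ''.ρ σ) (ResidueField O'')).trans ?_
        rw [LinearMap.trace_eq_matrix_trace _ b, ← matRep_apply, (hh σ).1,
          show (R0 σ).trace = residue C (ρ σ).trace from
            (AddMonoidHom.map_trace (residue C).toAddMonoidHom _).symm, ResidueField.map_residue]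
        rfl
    have hdet : ∀ σ, LinearMap.det (ρ''.residual.ρ σ) = f (R0 σ).det := fun σ => by
      refine (LinearMap.det_baseChange (A := ResidueField O'') (ρ''.ρ σ)).trans ?_
      rw [← LinearMap.det_toMatrix b, ← matRep_apply, (hh σ).2,
        show (R0 σ).det = residue C (ρ σ).det from (RingHom.map_det _ _).symm,
        ResidueField.map_residue]
      rfl
    have hodd : ∀ c : GalQ, c * c = 1 → c ≠ 1 → (R0 c).det = -1 := fun c hc hne => by
      rw [show (R0 c).det = residue C (ρ c).det from (RingHom.map_det _ _).symm, H.det,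
        cycChar_apply, ConductorMatch.cyc_involution hc hne hp2, map_neg, map_neg, map_one,
        map_one]
    refine ⟨?_, fun c hc hne => by rw [hdet, hodd c hc hne, map_neg, map_one]⟩
    have h2 : (2 : ResidueField C) ≠ 0 := fun h => hp2 <| by
      have hchar : CharP (ResidueField C) p := (CharP.charP_iff_prime_eq_zero Fact.out).mpr
        (by rw [← map_natCast (residue C)]; exact (residue_eq_zero_iff _).mpr hpC)
      have h' : ((2 : ℕ) : ResidueField C) = 0 := by exact_mod_cast h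
      rw [CharP.cast_eq_zero_iff _ p] at h'
      exact (Nat.prime_dvd_prime_iff_eq Fact.out Nat.prime_two).mp h'
    refine ConductorMatch.isAbsolutelyIrreducible_of_trace_det h2 ρ''.residual R0 f htr hdet
      complexConjugation_mul_self ?_ fun v hv => ?_
    · rw [show (R0 complexConjugation).det = residue C (ρ complexConjugation).det from
        (RingHom.map_det _ _).symm, H.det, cycChar_apply, cyc_complexConjugation, map_neg,
        map_neg, map_one, map_one]
    · by_contra hc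
      push Not at hc
      exact hv (hirr _ (RingHom.id _) v fun σ _ => by simpa using hc σ)
  obtain ⟨O'', _, _, _, _, _, _, _, _, _, hinj, ρ'', hfrob, hnu⟩ :=
    CarayolSquare.carayol H.isNewform p S C hpC hp2 χ
    (fun l hl hlM hlS => Eigenforms.eigenChar_T _ hl hlM hlS) iota H.mem.1 H.mem.2 hres
  obtain ⟨b⟩ : Nonempty (Module.Basis (Fin 2) O'' ρ''.V) :=
    ⟨Module.finBasisOfFinrankEq O'' ρ''.V ρ''.finrank_eq⟩
  have hh := key O'' ρ'' b fun l hl _ => hfrob l hl
  by_contra hall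
  push Not at hall
  refine hnu r hr hrp hM fun P' hP' σ hσ => ?_
  obtain ⟨γ, rfl⟩ := Density.exists_smul_eq_of_liesOverPrime hr hP' hP
  have h2 := hall _ (Density.mem_inertiaSubgroupIn_smul hσ γ)
  rw [map_mul, map_mul, Matrix.trace_mul_comm, ← mul_assoc, ← map_mul, inv_mul_cancel, map_one,
    one_mul] at h2
  obtain ⟨e1, e2⟩ := hh σ
  rw [h2, map_ofNat] at e1
  rw [H.det, cycChar_apply, cyc_inertia p hr hrp hP' hσ, map_one, map_one] at e2
  rw [← LinearMap.charpoly_toMatrix (ρ''.ρ σ) b, ← matRep_apply, Matrix.charpoly_fin_two, e1, e2,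
    map_one, map_ofNat]
  ring

end OnNewform

end Newform

end FLTAgent.LevelLowering
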