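import Fermat.Agent.LevelLowering.SiteIdentities
import Fermat.Agent.LevelLowering.SitePoly
import Mathlib.FieldTheory.IsAlgClosed.AlgebraicClosure
import Mathlib.RingTheory.LocalRing.ResidueField.Basic
import Mathlib.LinearAlgebra.Matrix.NonsingularInverse

/-!
# Principal series points

`principal_point`: at a prime `r ≡ 1 (mod p)` where inertia is residually trivial and not
unipotent, its image has eigenvalues `z, z⁻¹` with `z ≠ 1` of `p`-power order dividing `r - 1`; so
it commutes with the image of Frobenius and its quadratic form is a root of the site polynomial.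
Used for the site identities.
-/

set_option autoImplicit false

noncomputable section

open IsLocalRing Matrix

namespace FLTAgent.LevelLowering

variable {C : Type} [CommRing C]

/-- The traces of the powers of a matrix of determinant one. -/
theorem trace_pow_of_roots {z z' : C} {N : Matrix (Fin 2) (Fin 2) C} (htr : N.trace = z + z')
    (hdet : N.det = 1) (hzz : z * z' = 1) : ∀ n : ℕ, (N ^ n).trace = z ^ n + z' ^ n := by
  suffices h : ∀ n, (N ^ n).trace = z ^ n + z' ^ n ∧
      (N ^ (n + 1)).trace = z ^ (n + 1) + z' ^ (n + 1) from fun n => (h n).1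
  intro n
  induction n with
  | zero => exact ⟨by simp [one_add_one_eq_two], by simpa using htr⟩
  | succ n ih =>
    refine ⟨ih.2, ?_⟩
    have e : N ^ (n + 1 + 1) = N.trace • N ^ (n + 1) - N ^ n := by
      rw [pow_succ, pow_succ, mul_assoc, sq_eq_trace_smul_sub, hdet, one_smul, mul_sub, mul_one,
        Matrix.mul_smul]
    rw [e, Matrix.trace_sub, Matrix.trace_smul, ih.1, ih.2, smul_eq_mul, htr]
    linear_combination (z ^ n + z' ^ n) * hzz

variable [IsLocalRing C]

/-- A matrix congruent to the identity killed by a unit exponent is the identity. -/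
theorem eq_one_of_pow_eq_one {n : ℕ} (hn : IsUnit (n : C)) {N : Matrix (Fin 2) (Fin 2) C}
    (h1 : ∀ i k, (N - 1) i k ∈ maximalIdeal C) (hN : N ^ n = 1) : N = 1 := by
  set G := ∑ s ∈ Finset.range n, N ^ s
  have hG : G * (N - 1) = 0 := by rw [geom_sum_mul, hN, sub_self]
  have hu : IsUnit G := by
    rw [Matrix.isUnit_iff_isUnit_det, ← residue_ne_zero_iff_isUnit, RingHom.map_det]
    have h : (residue C).mapMatrix N = 1 := by
      refine Matrix.ext fun i k => sub_eq_zero.mp ?_
      have := (residue_eq_zero_iff _).mpr (h1 i k)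
      rw [Matrix.sub_apply, map_sub] at this
      rw [RingHom.mapMatrix_apply, Matrix.map_apply]
      convert this using 2
      rw [Matrix.one_apply, Matrix.one_apply]
      split <;> simp
    simp only [G, map_sum, map_pow, h, one_pow, Finset.sum_const, Finset.card_range]
    rw [← Nat.cast_smul_eq_nsmul (ResidueField C), Matrix.det_smul, Matrix.det_one, mul_one,
      ← map_natCast (residue C), ← map_pow]
    exact (residue_ne_zero_iff_isUnit _).mpr (hn.pow _)
  exact sub_eq_zero.mp ((hu.mul_right_eq_zero).mp hG)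

variable [IsDomain C]

/-- The eigenvalues of inertia at a principal series point. -/
theorem exists_root_of_conj {p r V : ℕ} [CharP (ResidueField C) p] (hp : p.Prime) (hp2 : p ≠ 2)
    (hr : p ^ V ∣ r - 1) (hV : ¬ p ^ (V + 1) ∣ r - 1) (hr1 : p ∣ r - 1) (hr0 : 1 ≤ r)
    {M N : Matrix (Fin 2) (Fin 2) C} (hM : IsUnit M)
    (h1 : ∀ i k, (N - 1) i k ∈ maximalIdeal C) (hdet : N.det = 1) (htr : N.trace ≠ 2)
    (hrel : M * N = N ^ r * M) :
    ∃ z z' : AlgebraicClosure (FractionRing C),
      algebraMap C (AlgebraicClosure (FractionRing C)) N.trace = z + z' ∧ z * z' = 1 ∧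
        z ^ p ^ V = 1 ∧ z ≠ 1 ∧ z ≠ z' := by
  set K := AlgebraicClosure (FractionRing C)
  set j : C →+* K := algebraMap C K
  have hj : Function.Injective j := by
    rw [show j = (algebraMap (FractionRing C) K).comp (algebraMap C (FractionRing C)) from
      IsScalarTower.algebraMap_eq C (FractionRing C) K]
    exact (FaithfulSMul.algebraMap_injective (FractionRing C) K).comp (IsFractionRing.injective C _)
  obtain ⟨z, hz⟩ := IsAlgClosed.exists_root
    (Polynomial.X ^ 2 - Polynomial.C (j N.trace) * Polynomial.X + 1 : Polynomial K) (by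
      rw [show (Polynomial.X ^ 2 - Polynomial.C (j N.trace) * Polynomial.X + 1 : Polynomial K) =
        Polynomial.C 1 * Polynomial.X ^ 2 + Polynomial.C (-(j N.trace)) * Polynomial.X +
          Polynomial.C 1 by simp; ring]
      rw [Polynomial.degree_quadratic one_ne_zero]
      exact two_ne_zero)
  simp only [Polynomial.IsRoot, Polynomial.eval_add, Polynomial.eval_sub, Polynomial.eval_mul,
    Polynomial.eval_pow, Polynomial.eval_X, Polynomial.eval_C, Polynomial.eval_one] at hz
  set z' := j N.trace - z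
  have hzz : z * z' = 1 := by linear_combination -hz
  have hsum : j N.trace = z + z' := by ring
  have hz1 : z ≠ 1 := fun h => htr (hj (by
    rw [hsum, map_ofNat]; rw [h, one_mul] at hzz; rw [h, hzz]; norm_num))
  have hdetK : (N.map j).det = 1 := by
    rw [← RingHom.mapMatrix_apply, ← RingHom.map_det, hdet, map_one]
  have htrK : (N.map j).trace = z + z' := by
    rw [← hsum, Matrix.trace_fin_two, Matrix.trace_fin_two, map_add]; rfl
  have hrpos : 1 ≤ r := hr0
  -- `N ^ r` has the trace of `N`
  have hconj : (N ^ r).trace = N.trace := by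
    obtain ⟨u, rfl⟩ := hM
    have e : N ^ r = u * N * (↑u⁻¹ : Matrix (Fin 2) (Fin 2) C) := by
      rw [hrel, mul_assoc, Units.mul_inv, mul_one]
    rw [e, Matrix.trace_units_conj]
  have hprod : (z ^ (r + 1) - 1) * (z ^ (r - 1) - 1) = 0 := by
    have h2 := trace_pow_of_roots htrK hdetK hzz r
    rw [← RingHom.mapMatrix_apply, ← map_pow, RingHom.mapMatrix_apply, Matrix.trace_fin_two,
      Matrix.map_apply, Matrix.map_apply, ← map_add, ← Matrix.trace_fin_two, hconj, hsum] at h2
    have h3 : z ^ r * z' ^ r = 1 := by rw [← mul_pow, hzz, one_pow]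
    have e1 : z ^ (r + 1) = z * z ^ r := pow_succ' z r
    have e2 : z ^ (r - 1) = z' * z ^ r := by
      obtain ⟨s, rfl⟩ : ∃ s, r = s + 1 := ⟨r - 1, by omega⟩
      rw [Nat.add_sub_cancel, pow_succ]
      linear_combination -(z ^ s) * hzz
    rw [e1, e2]
    linear_combination (-(z ^ r)) * h2 + (z ^ r * z ^ r) * hzz - h3
  have hne : z ≠ z' := by
    intro h
    have h2 : (z - 1) * (z + 1) = 0 := by linear_combination hzz + z * h
    rcases mul_eq_zero.mp h2 with h2 | h2
    · exact hz1 (sub_eq_zero.mp h2)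
    · -- trace `-2` is impossible residually
      have e : N.trace = -2 := hj (by
        rw [hsum, map_neg, map_ofNat, ← h]; linear_combination 2 * h2)
      have hr2 : residue C N.trace = 2 := by
        rw [Matrix.trace_fin_two, map_add]
        have a0 := (residue_eq_zero_iff _).mpr (h1 0 0)
        have a1 := (residue_eq_zero_iff _).mpr (h1 1 1)
        simp only [Matrix.sub_apply, Matrix.one_apply_eq, map_sub, map_one, sub_eq_zero] at a0 a1
        rw [a0, a1, one_add_one_eq_two]
      rw [e, map_neg, map_ofNat, neg_eq_iff_add_eq_zero] at hr2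
      have h4 : ((4 : ℕ) : ResidueField C) = 0 := by rw [← hr2]; norm_num
      rw [CharP.cast_eq_zero_iff _ p] at h4
      have h22 : p ∣ 2 * 2 := h4
      exact hp2 ((Nat.prime_dvd_prime_iff_eq hp Nat.prime_two).mp ((hp.dvd_mul.mp h22).elim id id))
  -- a power killing `z` kills `N`
  have hkill : ∀ n : ℕ, z ^ n = 1 → N ^ n = 1 := by
    intro n hn
    have hn' : z' ^ n = 1 := by
      have := congrArg (· ^ n) hzz
      simpa [mul_pow, hn] using this
    have h := pow_eq_add_smul htrK (by rw [hdetK, hzz]) n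
    rw [hn, hn', sub_self, zero_smul, zero_sub, mul_one, mul_one, ← neg_smul, smul_neg, ← neg_smul,
      neg_neg] at h
    refine Matrix.map_injective hj ?_
    show (N ^ n).map j = (1 : Matrix (Fin 2) (Fin 2) C).map j
    rw [← RingHom.mapMatrix_apply, ← RingHom.mapMatrix_apply, map_pow, map_one]
    exact smul_right_injective _ (sub_ne_zero.mpr hne) h
  have hunit : ∀ n : ℕ, ¬ p ∣ n → IsUnit (n : C) := fun n hn => by
    rw [← residue_ne_zero_iff_isUnit, map_natCast, Ne, CharP.cast_eq_zero_iff _ p]
    exact hn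
  have hN1 : N ≠ 1 := fun h => htr (by rw [h, Matrix.trace_one, Fintype.card_fin, Nat.cast_ofNat])
  refine ⟨z, z', hsum, hzz, ?_, hz1, hne⟩
  rcases mul_eq_zero.mp hprod with h | h
  · refine absurd (eq_one_of_pow_eq_one (hunit (r + 1) fun hd => ?_) h1
      (hkill _ (sub_eq_zero.mp h))) hN1
    have h2 := Nat.dvd_sub hd hr1
    rw [show r + 1 - (r - 1) = 2 by omega] at h2
    exact hp2 ((Nat.prime_dvd_prime_iff_eq hp Nat.prime_two).mp h2)
  · obtain ⟨m, hm⟩ := hr
    have hpm : ¬ p ∣ m := fun ⟨c, hc⟩ => hV ⟨c, by rw [hm, hc, pow_succ]; ring⟩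
    have hN := hkill _ (sub_eq_zero.mp h)
    rw [hm, pow_mul] at hN
    have hpV : ∀ i k, (N ^ p ^ V - 1) i k ∈ maximalIdeal C := by
      intro i k
      rw [← geom_sum_mul N, Matrix.mul_apply]
      exact Ideal.sum_mem _ fun l _ => Ideal.mul_mem_left _ _ (h1 l k)
    have hNV : N ^ p ^ V = 1 := eq_one_of_pow_eq_one (hunit m hpm) hpV hN
    -- back to `z`
    have hNVK : (N.map j) ^ p ^ V = 1 := by
      rw [← RingHom.mapMatrix_apply, ← map_pow, hNV, map_one]
    have h5 := pow_eq_add_smul htrK (by rw [hdetK, hzz]) (p ^ V)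
    rw [hNVK] at h5
    by_contra hzV
    have e01 : ∀ i k : Fin 2, i ≠ k → (z ^ p ^ V - z' ^ p ^ V) * (N.map j) i k = 0 := by
      intro i k hik
      have := congrFun (congrFun h5 i) k
      simpa [Matrix.one_apply_ne hik] using this.symm
    have h6 := trace_pow_of_roots htrK hdetK hzz (p ^ V)
    rw [hNVK, Matrix.trace_one, Fintype.card_fin, Nat.cast_ofNat] at h6
    have h7 : z ^ p ^ V * z' ^ p ^ V = 1 := by rw [← mul_pow, hzz, one_pow]
    refine hzV ?_
    have h8 : (z ^ p ^ V - 1) * (z ^ p ^ V - 1) = 0 := by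
      linear_combination (-(z ^ p ^ V)) * h6 - h7
    exact sub_eq_zero.mp (mul_self_eq_zero.mp h8)

/-- **A principal series point**: Frobenius commutes with inertia and the quadratic form of inertia
is a root of the site polynomial. -/
theorem principal_point {O : Type} [CommRing O] (ι : O →+* C) (hι : Function.Injective ι) {u ζ : O}
    (hu : 2 * u = 1) {p r V : ℕ} [CharP (ResidueField C) p] (hp : p.Prime) (hp2 : p ≠ 2)
    (hr : p ^ V ∣ r - 1) (hV : ¬ p ^ (V + 1) ∣ r - 1) (hr1 : p ∣ r - 1) (hr0 : 1 ≤ r)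
    (hζ : IsPrimitiveRoot ζ (p ^ V)) {M N : Matrix (Fin 2) (Fin 2) C} (hM : IsUnit M)
    (h1 : ∀ i k, (N - 1) i k ∈ maximalIdeal C) (hdet : N.det = 1) (htr : N.trace ≠ 2)
    (hrel : M * N = N ^ r * M) :
    M * N = N * M ∧ (sitePoly u ζ (p ^ V)).eval₂ ι (qform (coord (ι u) N)) = 0 := by
  set K := AlgebraicClosure (FractionRing C)
  set j : C →+* K := algebraMap C K
  have hj : Function.Injective j := by
    rw [show j = (algebraMap (FractionRing C) K).comp (algebraMap C (FractionRing C)) from
      IsScalarTower.algebraMap_eq C (FractionRing C) K]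
    exact (FaithfulSMul.algebraMap_injective (FractionRing C) K).comp (IsFractionRing.injective C _)
  obtain ⟨z, z', hsum, hzz, hzV, hz1, hne⟩ :
      ∃ z z' : K, j N.trace = z + z' ∧ z * z' = 1 ∧ z ^ p ^ V = 1 ∧ z ≠ 1 ∧ z ≠ z' :=
    exists_root_of_conj hp hp2 hr hV hr1 hr0 hM h1 hdet htr hrel
  have hdetK : (N.map j).det = 1 := by
    rw [← RingHom.mapMatrix_apply, ← RingHom.map_det, hdet, map_one]
  have htrK : (N.map j).trace = z + z' := by
    rw [← hsum, Matrix.trace_fin_two, Matrix.trace_fin_two, map_add]; rfl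
  constructor
  · have h := congrArg j.mapMatrix hrel
    rw [map_mul, map_mul, map_pow] at h
    refine Matrix.map_injective hj ?_
    show j.mapMatrix (M * N) = j.mapMatrix (N * M)
    rw [map_mul, map_mul]
    refine commute_of_principal (m := p ^ V) htrK hdetK hzz hzV hne ?_ h
    have hV0 : V ≠ 0 := by
      rintro rfl
      simp only [pow_zero, pow_one] at hzV
      exact hz1 hzV
    have hlt : 1 < p ^ V := Nat.one_lt_pow hV0 hp.one_lt
    obtain ⟨c, hc⟩ := hr
    rw [show r = 1 + p ^ V * c by omega, Nat.add_mul_mod_self_left, Nat.mod_eq_of_lt hlt]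
  · refine hj ?_
    rw [map_zero, Polynomial.hom_eval₂, qform_map,
      show (fun i => j (coord (ι u) N i)) = coord (j (ι u)) (N.map j) from
        funext fun i => coord_map j _ _ i]
    exact eval₂_sitePoly_qform (j.comp ι) hu (pow_pos hp.pos V)
      (hζ.map_of_injective (f := j.comp ι) (hj.comp hι)) hzV hz1 hzz htrK hdetK

end FLTAgent.LevelLowering
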